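import Mathlib
import Fermat.Agent.S55.LG.Defs
import Fermat.Agent.S55.LG.Dense
import Fermat.Agent.S55.LocalVal
import Fermat.Agent.S55.LocalRing
import Fermat.Agent.S55.LocalKummerIndexCore
import Fermat.Agent.S55.LocalKummerIndex

/-!
# S55 / Hasse norm theorem, leaf HN-3 `LocOpen.lean`: the local norm group is open

Elements of `K_v` close to `1` are `d`-th powers (`d = [L_w : K_v]`, any `d ≥ 1`), hence norms
from `L_w`.  The `d`-th power statement is helper16's `lki_pow_surj` (successive approximation in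
a complete discrete valuation ring), iterated over the prime factors of `d`.
Helper names are prefixed `hnlo_`.
-/

set_option autoImplicit false
set_option linter.unusedSectionVars false
set_option linter.unusedVariables false

noncomputable section

namespace Fermat.Agent.S55

open NumberField IsDedekindDomain IsLocalRing

section Local

variable (q : ℕ) [Fact q.Prime]
  (K : Type) [Field K] [Algebra ℚ_[q] K] [FiniteDimensional ℚ_[q] K]

/-- For every `d ≥ 1` and every level `t`, the units `≡ 1 mod 𝔪^s` (`s` large) are `d`-th powers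
of units `≡ 1 mod 𝔪^t`. -/
theorem hnlo_exists_pow_surj (d : ℕ) (hd : d ≠ 0) :
    ∀ t : ℕ, ∃ s : ℕ, ∀ w ∈ lkiU (lfInt q K) s, ∃ v ∈ lkiU (lfInt q K) t, v ^ d = w := by
  induction d using Nat.recOnMul with
  | zero => exact absurd rfl hd
  | one =>
    intro t
    exact ⟨t, fun w hw => ⟨w, hw, pow_one w⟩⟩
  | prime ℓ hℓ =>
    intro t
    obtain ⟨c, hc, -⟩ := lki_exists_span_eq q K ℓ hℓ.ne_zero
    have hr : 1 ≤ max t (c + 1) := le_trans (Nat.le_add_left 1 c) (le_max_right _ _)
    have hrc : c < max t (c + 1) * (ℓ - 1) := by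
      have h1 : 1 ≤ ℓ - 1 := Nat.le_sub_one_of_lt hℓ.one_lt
      calc c < c + 1 := Nat.lt_succ_self c
        _ ≤ max t (c + 1) := le_max_right _ _
        _ = max t (c + 1) * 1 := (mul_one _).symm
        _ ≤ max t (c + 1) * (ℓ - 1) := Nat.mul_le_mul_left _ h1
    refine ⟨max t (c + 1) + c, fun w hw => ?_⟩
    obtain ⟨v, hv, hvw⟩ := lki_pow_surj hℓ hc hr hrc w hw
    exact ⟨v, lkiU_antitone (le_max_left _ _) hv, hvw⟩
  | mul a b iha ihb =>
    have ha : a ≠ 0 := fun h => hd (by rw [h, zero_mul])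
    have hb : b ≠ 0 := fun h => hd (by rw [h, mul_zero])
    intro t
    obtain ⟨sb, hsb⟩ := ihb hb t
    obtain ⟨sa, hsa⟩ := iha ha sb
    refine ⟨sa, fun w hw => ?_⟩
    obtain ⟨u, hu, huw⟩ := hsa w hw
    obtain ⟨v, hv, hvu⟩ := hsb u hu
    refine ⟨v, hv, ?_⟩
    rw [mul_comm, pow_mul, hvu, huw]

/-- Units of a local field close to `1` are `d`-th powers. -/
theorem hnlo_exists_ball_pow (d : ℕ) (hd : d ≠ 0) :
    ∃ ε : ℝ, 0 < ε ∧ ∀ u : Kˣ, spectralNorm ℚ_[q] K ((u : K) - 1) < ε → ∃ v : Kˣ, v ^ d = u := by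
  obtain ⟨s, hs⟩ := hnlo_exists_pow_surj q K d hd 0
  obtain ⟨π, hπ⟩ := exists_isLfUniformizer q K
  have hπ0 : π ≠ 0 := IsLfUniformizer.ne_zero q K hπ
  have hπ1 : lfOrd q K π = 1 := hπ
  have hρpos : 0 < spectralNorm ℚ_[q] K π :=
    spectralNorm_zero_lt hπ0 (Algebra.IsAlgebraic.isAlgebraic π)
  have hρlt : spectralNorm ℚ_[q] K π < 1 := by
    rw [spectralNorm_lt_one_iff_lfOrd q K hπ0, hπ1]
    exact zero_lt_one
  refine ⟨spectralNorm ℚ_[q] K π ^ s, pow_pos hρpos s, fun u hu => ?_⟩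
  have hε1 : spectralNorm ℚ_[q] K π ^ s ≤ 1 := pow_le_one₀ hρpos.le hρlt.le
  have hx1 : spectralNorm ℚ_[q] K ((u : K) - 1) < 1 := lt_of_lt_of_le hu hε1
  have hxint : (u : K) - 1 ∈ lfInt q K := by
    rw [mem_lfInt_iff]
    exact hx1.le
  have hxm : (⟨(u : K) - 1, hxint⟩ : lfInt q K) ∈ maximalIdeal (lfInt q K) := by
    rw [mem_maximalIdeal_lfInt_iff]
    exact hx1
  obtain ⟨uR, huR⟩ := lki_isUnit_one_add hxm
  have huRK : ((uR : lfInt q K) : K) = (u : K) := by
    rw [huR]
    change (1 : K) + ((u : K) - 1) = (u : K)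
    ring
  have hmem : uR ∈ lkiU (lfInt q K) s := by
    rw [mem_lkiU_iff, huR, add_sub_cancel_left]
    by_cases hx0 : (⟨(u : K) - 1, hxint⟩ : lfInt q K) = 0
    · rw [hx0]
      exact zero_mem _
    · rw [mem_maximalIdeal_pow_lfInt_iff q K _ hx0]
      change (s : ℤ) ≤ lfOrd q K ((u : K) - 1)
      have hxK0 : (u : K) - 1 ≠ 0 := fun h => hx0 (Subtype.ext h)
      rw [spectralNorm_eq_zpow_lfOrd q K hπ hxK0, ← zpow_natCast] at hu
      by_contra hlt
      rw [not_le] at hlt
      have := zpow_le_zpow_right_of_le_one₀ hρpos hρlt.le hlt.le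
      exact absurd hu (not_lt.2 this)
  obtain ⟨vR, -, hv⟩ := hs uR hmem
  refine ⟨Units.map ((lfInt q K).subtype : lfInt q K →* K) vR, ?_⟩
  apply Units.ext
  rw [Units.val_pow_eq_pow_val, Units.coe_map, ← huRK, ← hv, Units.val_pow_eq_pow_val]
  rfl

end Local

section Main

variable {K L : Type} [Field K] [NumberField K] [Field L] [NumberField L] [Algebra K L]

/-- Elements of `K_v` close to `1` are local norms (they are `[L_w : K_v]`-th powers). -/
theorem hn_exists_ball_le_norm [IsGalois K L] {p : ℕ} [Fact p.Prime]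
    (hdeg : Module.finrank K L = p) (q : ℕ) [Fact q.Prime] (j : L →+* PadicAlgCl q) :
    ∃ ε : ℝ, 0 < ε ∧ ∀ u : (lgField q (j.comp (algebraMap K L)))ˣ,
      ‖((u : lgField q (j.comp (algebraMap K L))) : PadicAlgCl q) - 1‖ < ε →
        u ∈ lfNormSubgroup (lgField q (j.comp (algebraMap K L))) (lgField q j) := by
  have hfd : FiniteDimensional (lgField q (j.comp (algebraMap K L))) (lgField q j) :=
    lgField_finiteDimensional_rel q j
  have hfree : Module.Free (lgField q (j.comp (algebraMap K L))) (lgField q j) :=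
    Module.Free.of_divisionRing _ _
  have hd : Module.finrank (lgField q (j.comp (algebraMap K L))) (lgField q j) ≠ 0 :=
    (Module.finrank_pos_iff_exists_ne_zero.2 ⟨1, one_ne_zero⟩).ne'
  obtain ⟨ε, hε, h⟩ := hnlo_exists_ball_pow q (lgField q (j.comp (algebraMap K L))) _ hd
  refine ⟨ε, hε, fun u hu => ?_⟩
  have hsn : spectralNorm ℚ_[q] (lgField q (j.comp (algebraMap K L)))
      ((u : lgField q (j.comp (algebraMap K L))) - 1) < ε := by
    rw [spectralNorm_lgField]
    exact hu
  obtain ⟨v, hv⟩ := h u hsn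
  refine ⟨Units.map (algebraMap (lgField q (j.comp (algebraMap K L))) (lgField q j) :
    lgField q (j.comp (algebraMap K L)) →* lgField q j) v, ?_⟩
  apply Units.ext
  rw [← hv, lfNormHom, Units.coe_map, Units.coe_map, Units.val_pow_eq_pow_val]
  exact Algebra.norm_algebraMap (v : lgField q (j.comp (algebraMap K L)))

end Main

end Fermat.Agent.S55
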