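import Fermat.Agent.S55.Hasse.Generate
import Fermat.Agent.S55.LG.ExistsSpec

set_option autoImplicit false
set_option linter.unusedSectionVars false

/-!
# S55 / Hasse norm theorem (degree `p`), HN-7: the assembly

`hn_hasse_norm`: `L/K` cyclic of odd prime degree `p`, `μ_p ⊆ K`.  An element of `Kˣ` which is a norm
from `L_j` to `K_j` for every `q`-adic embedding `j` of `L` (all primes `q`) is a global norm.
-/

noncomputable section

namespace Fermat.Agent.S55

open NumberField IsDedekindDomain Fermat.Agent.S14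

variable {K L : Type} [Field K] [NumberField K] [Field L] [NumberField L] [Algebra K L]

/-- Every `q`-adic embedding of `K` extends to `L`. -/
theorem hn_exists_extend (q : ℕ) [Fact q.Prime] (i : K →+* PadicAlgCl q) :
    ∃ j : L →+* PadicAlgCl q, j.comp (algebraMap K L) = i := by
  letI : Algebra K (PadicAlgCl q) := i.toAlgebra
  let f : L →ₐ[K] PadicAlgCl q := IsAlgClosed.lift
  refine ⟨f.toRingHom, ?_⟩
  ext x
  exact f.commutes x

/-- The residue characteristic of a finite place. -/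
theorem hn_exists_prime_mem (v : HeightOneSpectrum (𝓞 K)) :
    ∃ q : ℕ, q.Prime ∧ ((q : ℕ) : 𝓞 K) ∈ v.asIdeal := by
  haveI : v.asIdeal.IsMaximal := v.isMaximal
  obtain ⟨ℓ, n, _, hℓmem, hℓ, _⟩ := Ideal.exists_prime_and_absNorm_eq_pow v.asIdeal
  exact ⟨ℓ, hℓ, hℓmem⟩

/-- **Hasse norm theorem** for cyclic extensions of odd prime degree `p` of a number field
containing the `p`-th roots of unity: an element which is a local norm at every finite place (every
`q`-adic embedding of `L`, all `q`) is a global norm. -/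
theorem hn_hasse_norm {p : ℕ} [Fact p.Prime] (hp2 : p ≠ 2) [IsGalois K L]
    (hdeg : Module.finrank K L = p) {ζ : K} (hζ : IsPrimitiveRoot ζ p) (a : Kˣ)
    (hloc : ∀ (q : ℕ) [Fact q.Prime] (j : L →+* PadicAlgCl q),
      Units.map (lgEmb q (j.comp (algebraMap K L)) : K →* lgField q (j.comp (algebraMap K L))) a ∈
        lfNormSubgroup (lgField q (j.comp (algebraMap K L))) (lgField q j)) :
    ∃ y : Lˣ, Units.map (Algebra.norm K : L →* K) y = a := by
  classical
  obtain ⟨S, -, hunr, hClK, hClL, haS⟩ := hn_exists_S (L := L) ∅ a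
  -- the covering family, indexed by `S`
  have h1 : ∀ v : ↥S, ∃ q : ℕ, q.Prime ∧
      ((q : ℕ) : 𝓞 K) ∈ (v : HeightOneSpectrum (𝓞 K)).asIdeal := fun v => hn_exists_prime_mem v.1
  choose q hqprime hqmem using h1
  haveI : ∀ k, Fact (q k).Prime := fun k => ⟨hqprime k⟩
  have h2 : ∀ v : ↥S, ∃ j : L →+* PadicAlgCl (q v),
      lgPlace (q v) (j.comp (algebraMap K L)) = v := by
    intro v
    obtain ⟨i, hi⟩ := exists_lgEmb (q := q v) v.1 (hqmem v)
    obtain ⟨j, hj⟩ := hn_exists_extend (L := L) (q v) i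
    exact ⟨j, by rw [hj, hi]⟩
  choose j hj using h2
  have hcov : HnCovers K q j S :=
    ⟨fun k k' h => Subtype.ext (by rw [← hj k, ← hj k']; exact h),
      fun k => by rw [hnPlace, hj]; exact k.2, fun v hv => ⟨⟨v, hv⟩, hj _⟩⟩
  -- the localisation map on the `S`-units
  let φ : ↥((S : Set (HeightOneSpectrum (𝓞 K))).unit K) →* (∀ k, HnQ K q j k) :=
    (hnLoc K q j).comp ((S : Set (HeightOneSpectrum (𝓞 K))).unit K).subtype
  have hφ : ∀ x, φ (gfiNorm K L (S : Set (HeightOneSpectrum (𝓞 K))) x) = 1 := by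
    intro x
    exact hnLoc_norm q j (x : Lˣ)
  have hidx := gfi_card_range_mul_relIndex_le hp2 hdeg hζ S hunr hClK φ hφ
  haveI : Finite (∀ k, HnQ K q j k) := hn_finite_HnQ hdeg q j
  have hcard := hn_card_HnQ hdeg q j S hcov
  obtain ⟨q₀, hgen⟩ := hn_exists_generator hdeg q j S hcov hClK hClL
  have hker := hn_ker_le_of_generated p (gfiNonsplit K L S).card
    (gfiNorm K L (S : Set (HeightOneSpectrum (𝓞 K)))).range φ hidx hcard.ge
    (hn_pow_eq_one hdeg q j) q₀
    (fun x => by
      obtain ⟨n, ε, hε, h⟩ := hgen x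
      exact ⟨n, ⟨ε, hε⟩, h⟩)
  have ha' : (⟨a, haS⟩ : ↥((S : Set (HeightOneSpectrum (𝓞 K))).unit K)) ∈ φ.ker := by
    rw [MonoidHom.mem_ker]
    show hnLoc K q j a = 1
    rw [hnLoc_eq_one_iff]
    exact fun k => hloc (q k) (j k)
  obtain ⟨y, hy⟩ := hker ha'
  exact ⟨(y : Lˣ), congrArg (fun z : ↥((S : Set (HeightOneSpectrum (𝓞 K))).unit K) => (z : Kˣ)) hy⟩

end Fermat.Agent.S55
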