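import Fermat.Agent.S55.GFI.ClassTrivial
import Fermat.Agent.S55.GFI.Places
import Fermat.Agent.S55.GFI.H1

set_option autoImplicit false
set_option linter.unusedSectionVars false

/-!
# S55 / Hasse norm theorem: choice of the finite set `S`
-/

namespace Fermat.Agent.S55

open NumberField IsDedekindDomain

section ChooseS

variable {K L : Type*} [Field K] [NumberField K] [Field L] [NumberField L] [Algebra K L]

/-- Only finitely many primes ramify: `L/K` is unramified outside a finite set. -/
theorem hn_exists_unramOutside :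
    ∃ S : Finset (HeightOneSpectrum (𝓞 K)),
      GfiUnramOutside K L (S : Set (HeightOneSpectrum (𝓞 K))) := by
  classical
  have hne : differentIdeal (𝓞 K) (𝓞 L) ≠ ⊥ := differentIdeal_ne_bot
  have hfin : {w : HeightOneSpectrum (𝓞 L) | w.asIdeal ∣ differentIdeal (𝓞 K) (𝓞 L)}.Finite :=
    Ideal.finite_factors hne
  refine ⟨hfin.toFinset.image (fun w => w.under (𝓞 K)), ?_⟩
  apply gfiUnramOutside_of_isUnramifiedAt
  intro w hw
  have h1 : ¬ w.asIdeal ∣ differentIdeal (𝓞 K) (𝓞 L) := by
    intro h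
    apply hw
    rw [Finset.mem_coe, Finset.mem_image]
    exact ⟨w, hfin.mem_toFinset.mpr h, rfl⟩
  exact not_dvd_differentIdeal_iff.mp h1

/-- The finite set `S` used in the Hasse norm theorem: it contains a given finite set, the
ramified primes and the support of `a`, and both `Cl_S(K)` and `Cl_{S_L}(L)` are trivial. -/
theorem hn_exists_S (S₀ : Finset (HeightOneSpectrum (𝓞 K))) (a : Kˣ) :
    ∃ S : Finset (HeightOneSpectrum (𝓞 K)), S₀ ⊆ S ∧
      GfiUnramOutside K L (S : Set (HeightOneSpectrum (𝓞 K))) ∧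
      GfiClassTrivial K (S : Set (HeightOneSpectrum (𝓞 K))) ∧
      GfiClassTrivial L (gfiAbove K L (S : Set (HeightOneSpectrum (𝓞 K)))) ∧
      a ∈ (S : Set (HeightOneSpectrum (𝓞 K))).unit K := by
  classical
  obtain ⟨Su, hSu⟩ := hn_exists_unramOutside (K := K) (L := L)
  have hfa := gfi_finite_valuation_ne_one a
  set S₁ : Finset (HeightOneSpectrum (𝓞 K)) := S₀ ∪ Su ∪ hfa.toFinset with hS₁
  have hfinL : (gfiAbove K L (S₁ : Set (HeightOneSpectrum (𝓞 K)))).Finite :=
    gfiAbove_finite S₁.finite_toSet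
  obtain ⟨T₂, hT₁₂, hT₂⟩ := gfi_exists_classTrivial L hfinL.toFinset
  set S₂ : Finset (HeightOneSpectrum (𝓞 K)) := S₁ ∪ T₂.image (fun w => w.under (𝓞 K)) with hS₂
  obtain ⟨S₃, hS₂₃, hS₃⟩ := gfi_exists_classTrivial K S₂
  have h13 : S₁ ⊆ S₃ := Finset.subset_union_left.trans hS₂₃
  refine ⟨S₃, ?_, ?_, hS₃, ?_, ?_⟩
  · exact (Finset.subset_union_left.trans Finset.subset_union_left).trans h13
  · apply GfiUnramOutside.mono _ hSu
    intro v hv
    exact h13 (Finset.mem_union_left _ (Finset.mem_union_right _ hv))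
  · apply GfiClassTrivial.mono _ hT₂
    intro w hw
    rw [mem_gfiAbove]
    apply hS₂₃
    rw [hS₂, Finset.mem_union]
    right
    exact Finset.mem_image.mpr ⟨w, hw, rfl⟩
  · intro v hv
    by_contra h
    apply hv
    apply h13
    rw [hS₁]
    exact Finset.mem_union_right _ (hfa.mem_toFinset.mpr h)

end ChooseS

end Fermat.Agent.S55
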