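import Mathlib

set_option autoImplicit false

/-!
# S55 / Hasse norm theorem (degree `p`): the abstract counting step

`E` = `S`-units of `K`, `N` = norms of `S_L`-units, `Q = ∏_{v ∈ S} K_v^× / N L_w^×`,
`φ : E → Q` the localisation map.  The first inequality bounds `|im φ| * [ker φ : N]` from above,
the second inequality says that `Q / im φ` is generated by one element; hence `ker φ = N`.
-/

namespace Fermat.Agent.S55

/-- If `Q` is generated by `im φ` and one element `q₀`, and `Q` has exponent `p`, then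
`|Q| ≤ p * |im φ|`. -/
theorem hn_card_le_of_generated {E Q : Type*} [CommGroup E] [CommGroup Q] [Finite Q] (p : ℕ)
    [hp : Fact p.Prime] (φ : E →* Q) (hexp : ∀ q : Q, q ^ p = 1) (q₀ : Q)
    (hgen : ∀ q : Q, ∃ (k : ℕ) (ε : E), q = φ ε * q₀ ^ k) :
    Nat.card Q ≤ p * Nat.card φ.range := by
  let f : φ.range × Subgroup.zpowers q₀ → Q := fun x => (x.1 : Q) * (x.2 : Q)
  have hf : Function.Surjective f := by
    intro q
    obtain ⟨k, ε, rfl⟩ := hgen q
    exact ⟨(⟨φ ε, ⟨ε, rfl⟩⟩, ⟨q₀ ^ k, Subgroup.npow_mem_zpowers q₀ k⟩), rfl⟩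
  have h1 : Nat.card Q ≤ Nat.card (φ.range × Subgroup.zpowers q₀) :=
    Nat.card_le_card_of_surjective f hf
  rw [Nat.card_prod, Nat.card_zpowers] at h1
  have h2 : orderOf q₀ ≤ p := Nat.le_of_dvd hp.out.pos (orderOf_dvd_of_pow_eq_one (hexp q₀))
  calc Nat.card Q ≤ Nat.card φ.range * orderOf q₀ := h1
    _ ≤ Nat.card φ.range * p := Nat.mul_le_mul_left _ h2
    _ = p * Nat.card φ.range := mul_comm _ _

/-- The abstract counting step of the Hasse norm theorem. -/
theorem hn_ker_le_of_generated {E Q : Type*} [CommGroup E] [CommGroup Q] [Finite Q] (p t : ℕ)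
    [hp : Fact p.Prime] (N : Subgroup E) (φ : E →* Q)
    (hidx : N.relIndex φ.ker ≠ 0 ∧ p * (Nat.card φ.range * N.relIndex φ.ker) ≤ p ^ t)
    (hcard : p ^ t ≤ Nat.card Q) (hexp : ∀ q : Q, q ^ p = 1) (q₀ : Q)
    (hgen : ∀ q : Q, ∃ (k : ℕ) (ε : E), q = φ ε * q₀ ^ k) : φ.ker ≤ N := by
  have h1 := hn_card_le_of_generated p φ hexp q₀ hgen
  have hpos : 0 < Nat.card φ.range := Nat.card_pos
  have hp0 : 0 < p := hp.out.pos
  have h2 : p * (Nat.card φ.range * N.relIndex φ.ker) ≤ p * Nat.card φ.range :=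
    hidx.2.trans (hcard.trans h1)
  have h3 : Nat.card φ.range * N.relIndex φ.ker ≤ Nat.card φ.range * 1 := by
    rw [mul_one]
    exact Nat.le_of_mul_le_mul_left h2 hp0
  have h4 : N.relIndex φ.ker ≤ 1 := Nat.le_of_mul_le_mul_left h3 hpos
  have h5 : N.relIndex φ.ker = 1 := le_antisymm h4 (Nat.one_le_iff_ne_zero.mpr hidx.1)
  exact Subgroup.relIndex_eq_one.mp h5

end Fermat.Agent.S55
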