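import Mathlib
import Fermat.Agent.S55.LG.Defs
import Fermat.Agent.S55.GFI.Defs

set_option autoImplicit false
set_option linter.unusedSectionVars false

/-!
# S55 / Hasse norm theorem (degree `p`): definitions

`K ⊆ L` number fields (`Type`, as the local layer).  A *family of local data* is an index type
`ι`, residue characteristics `q : ι → ℕ` (all prime) and embeddings `j k : L →+* PadicAlgCl (q k)`.
It gives the local extensions `L_{j k} / K_{i k}`, `i k = j k ∘ algebraMap K L`, in helper2's LG
language (`lgField`), the norm residue groups `HnQ K q j k = K_{i k}ˣ ⧸ N L_{j k}ˣ` and the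
localisation map `hnLoc K q j : Kˣ →* ∏_k HnQ K q j k`.
-/

noncomputable section

namespace Fermat.Agent.S55

open NumberField IsDedekindDomain

section Defs

variable (K : Type) {L : Type} [Field K] [NumberField K] [Field L] [NumberField L] [Algebra K L]
variable {ι : Type} (q : ι → ℕ) [∀ k, Fact (q k).Prime] (j : ∀ k, L →+* PadicAlgCl (q k))

/-- The norm residue group `K_vˣ ⧸ N L_wˣ` at the index `k`.  (A `def` with its own `CommGroup`
instance: instance search on the raw quotient of `(lgField ..)ˣ` is slow and fragile.) -/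
def HnQ (k : ι) : Type :=
  (lgField (q k) ((j k).comp (algebraMap K L)))ˣ ⧸
    lfNormSubgroup (lgField (q k) ((j k).comp (algebraMap K L))) (lgField (q k) (j k))

instance hnQ_commGroup (k : ι) : CommGroup (HnQ K q j k) :=
  QuotientGroup.Quotient.commGroup
    (lfNormSubgroup (lgField (q k) ((j k).comp (algebraMap K L))) (lgField (q k) (j k)))

/-- The quotient map `K_vˣ → K_vˣ ⧸ N L_wˣ`. -/
def hnMk (k : ι) : (lgField (q k) ((j k).comp (algebraMap K L)))ˣ →* HnQ K q j k :=
  QuotientGroup.mk'
    (lfNormSubgroup (lgField (q k) ((j k).comp (algebraMap K L))) (lgField (q k) (j k)))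

theorem hnMk_surjective (k : ι) : Function.Surjective (hnMk K q j k) :=
  QuotientGroup.mk'_surjective _

theorem hnMk_eq_one_iff (k : ι) (u : (lgField (q k) ((j k).comp (algebraMap K L)))ˣ) :
    hnMk K q j k u = 1 ↔
      u ∈ lfNormSubgroup (lgField (q k) ((j k).comp (algebraMap K L))) (lgField (q k) (j k)) :=
  QuotientGroup.eq_one_iff u

theorem hnMk_ker (k : ι) :
    (hnMk K q j k).ker =
      lfNormSubgroup (lgField (q k) ((j k).comp (algebraMap K L))) (lgField (q k) (j k)) :=
  QuotientGroup.ker_mk' _

/-- The order of the norm residue group is the norm index. -/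
theorem hn_card_HnQ_eq_index (k : ι) :
    Nat.card (HnQ K q j k) =
      (lfNormSubgroup (lgField (q k) ((j k).comp (algebraMap K L))) (lgField (q k) (j k))).index :=
  rfl

/-- The component at `k` of the localisation map. -/
def hnLocAt (k : ι) : Kˣ →* HnQ K q j k :=
  (hnMk K q j k).comp
    (Units.map (lgEmb (q k) ((j k).comp (algebraMap K L)) : K →* lgField (q k) _))

/-- The localisation map `Kˣ → ∏_k K_{v_k}ˣ ⧸ N L_{w_k}ˣ`. -/
def hnLoc : Kˣ →* (∀ k, HnQ K q j k) := MonoidHom.pi fun k => hnLocAt K q j k

theorem hnLoc_apply (a : Kˣ) (k : ι) : hnLoc K q j a k = hnLocAt K q j k a := rfl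

theorem hnLocAt_eq_one_iff (k : ι) (a : Kˣ) :
    hnLocAt K q j k a = 1 ↔
      Units.map (lgEmb (q k) ((j k).comp (algebraMap K L)) : K →* lgField (q k) _) a ∈
        lfNormSubgroup (lgField (q k) ((j k).comp (algebraMap K L))) (lgField (q k) (j k)) := by
  rw [hnLocAt, MonoidHom.comp_apply, hnMk_eq_one_iff]

theorem hnLoc_eq_one_iff (a : Kˣ) :
    hnLoc K q j a = 1 ↔ ∀ k,
      Units.map (lgEmb (q k) ((j k).comp (algebraMap K L)) : K →* lgField (q k) _) a ∈
        lfNormSubgroup (lgField (q k) ((j k).comp (algebraMap K L))) (lgField (q k) (j k)) := by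
  rw [funext_iff]
  exact forall_congr' fun k => hnLocAt_eq_one_iff K q j k a

/-- The place of `K` at the index `k`. -/
def hnPlace (k : ι) : HeightOneSpectrum (𝓞 K) := lgPlace (q k) ((j k).comp (algebraMap K L))

/-- The family of local data `(q, j)` *covers* the finite set `S` of primes of `K`: the places
`hnPlace K q j k` are pairwise distinct and are exactly the elements of `S`. -/
structure HnCovers (S : Finset (HeightOneSpectrum (𝓞 K))) : Prop where
  inj : Function.Injective (hnPlace K q j)
  mem : ∀ k, hnPlace K q j k ∈ S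
  surj : ∀ v ∈ S, ∃ k, hnPlace K q j k = v

end Defs

end Fermat.Agent.S55
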