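/-
S55 / Hasse norm theorem, leaf HN-5: divisor bookkeeping in the S14 language (`Div`, `divOf`,
`normDiv`) versus `S`-units.
-/
import Mathlib
import Fermat.Agent.S14.NormDiv
import Fermat.Agent.S55.GFI.ClassTrivial
import Fermat.Agent.S55.Global.Second.Defs

set_option autoImplicit false
set_option linter.unusedSectionVars false
set_option linter.unusedVariables false

noncomputable section

namespace Fermat.Agent.S55

open NumberField IsDedekindDomain Fermat.Agent.S14

variable {K L : Type} [Field K] [NumberField K] [Field L] [NumberField L] [Algebra K L]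

section HN5

/-- the valuation of a nonzero element in terms of its divisor -/
theorem hn_valuation_eq_exp_neg_divOf (v : HeightOneSpectrum (𝓞 K)) (x : Kˣ) :
    v.valuation K (x : K) = WithZero.exp (-(S14.divOf K (x : K) v)) := by
  rw [S14.divOf_apply]
  exact gfict_valuation_eq_exp_neg_count v x.ne_zero

/-- `Cl_S(K) = 1`: every divisor is principal outside `S`. -/
theorem hn_exists_divOf_eq (S : Set (HeightOneSpectrum (𝓞 K))) (hCl : GfiClassTrivial K S)
    (D : S14.Div K) : ∃ b : Kˣ, ∀ v, v ∉ S → S14.divOf K (b : K) v = D v := by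
  obtain ⟨b, hb⟩ := hCl (-D)
  refine ⟨b, fun v hv => ?_⟩
  have h1 := hb v hv
  rw [hn_valuation_eq_exp_neg_divOf, WithZero.exp_inj, Finsupp.neg_apply, neg_inj] at h1
  exact h1

theorem hn_mem_unit_iff_divOf (S : Set (HeightOneSpectrum (𝓞 K))) (x : Kˣ) :
    x ∈ S.unit K ↔ ∀ v, v ∉ S → S14.divOf K (x : K) v = 0 := by
  have key : ∀ v : HeightOneSpectrum (𝓞 K),
      v.valuation K (x : K) = 1 ↔ S14.divOf K (x : K) v = 0 := by
    intro v
    rw [hn_valuation_eq_exp_neg_divOf, WithZero.exp_eq_one, neg_eq_zero]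
  constructor
  · intro h v hv
    exact (key v).mp (h v hv)
  · intro h v hv
    exact (key v).mpr (h v hv)

theorem hn_divOf_mul (x y : Kˣ) :
    S14.divOf K ((x * y : Kˣ) : K) = S14.divOf K (x : K) + S14.divOf K (y : K) := by
  rw [Units.val_mul]
  exact S14.divOf_mul' K x.ne_zero y.ne_zero

theorem hn_divOf_inv (x : Kˣ) : S14.divOf K ((x⁻¹ : Kˣ) : K) = - S14.divOf K (x : K) := by
  rw [Units.val_inv_eq_inv_val]
  exact S14.divOf_inv (x : K)

theorem hn_divOf_pow (x : Kˣ) (n : ℕ) : S14.divOf K ((x ^ n : Kˣ) : K) = n • S14.divOf K (x : K) := by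
  induction n with
  | zero =>
    rw [pow_zero, zero_nsmul, Units.val_one]
    exact S14.divOf_one K
  | succ n ih =>
    rw [pow_succ, hn_divOf_mul, ih, succ_nsmul]

/-- the divisor norm at `v` of a divisor vanishing at all places above `v` is zero -/
theorem hn_normDiv_apply_eq_zero (E : S14.Div L) (v : HeightOneSpectrum (𝓞 K))
    (h : ∀ w : HeightOneSpectrum (𝓞 L), S14.placeBelow K L w = v → E w = 0) :
    S14.normDiv K L E v = 0 := by
  have h1 : S14.normDiv K L E = E.sum fun w n =>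
      Finsupp.single (S14.placeBelow K L w) (((w.asIdeal.inertiaDeg (𝓞 K) : ℕ) : ℤ) * n) := by
    rw [S14.normDiv, Finsupp.liftAddHom_apply]
    rfl
  rw [h1, Finsupp.sum, Finsupp.finsetSum_apply]
  refine Finset.sum_eq_zero fun w _ => ?_
  by_cases hw : S14.placeBelow K L w = v
  · rw [h w hw, mul_zero, Finsupp.single_zero]
    rfl
  · exact Finsupp.single_eq_of_ne' hw

theorem hn_placeBelow_eq_under (w : HeightOneSpectrum (𝓞 L)) :
    S14.placeBelow K L w = w.under (𝓞 K) := rfl

/-- The divisor norm only sees the places above: if `E` and `E'` agree outside `S_L` then their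
norms agree outside `S`. -/
theorem hn_normDiv_apply_congr (S : Set (HeightOneSpectrum (𝓞 K))) (E E' : S14.Div L)
    (h : ∀ w, w ∉ gfiAbove K L S → E w = E' w) (v : HeightOneSpectrum (𝓞 K)) (hv : v ∉ S) :
    S14.normDiv K L E v = S14.normDiv K L E' v := by
  have h0 : S14.normDiv K L (E - E') v = 0 := by
    refine hn_normDiv_apply_eq_zero (E - E') v fun w hw => ?_
    have hw' : w ∉ gfiAbove K L S := by
      rw [mem_gfiAbove, ← hn_placeBelow_eq_under, hw]
      exact hv
    rw [Finsupp.sub_apply, h w hw', sub_self]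
  rw [map_sub, Finsupp.sub_apply, sub_eq_zero] at h0
  exact h0

/-- A divisor is prime to `𝔪` iff it vanishes on `S`, when the prime divisors of `𝔪` are exactly
the elements of `S`. -/
theorem hn_gdPrimeTo_iff (S : Set (HeightOneSpectrum (𝓞 K))) (𝔪 : Ideal (𝓞 K))
    (h𝔪 : ∀ v : HeightOneSpectrum (𝓞 K), 𝔪 ≤ v.asIdeal ↔ v ∈ S) (D : S14.Div K) :
    gdPrimeTo K 𝔪 D ↔ ∀ v, v ∈ S → D v = 0 := by
  constructor
  · intro h v hv
    exact h v ((h𝔪 v).mpr hv)
  · intro h v hv
    exact h v ((h𝔪 v).mp hv)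

/-- The primes of `L` dividing `𝔪 𝓞_L` are those above the primes dividing `𝔪`. -/
theorem hn_map_le_iff (𝔪 : Ideal (𝓞 K)) (w : HeightOneSpectrum (𝓞 L)) :
    𝔪.map (algebraMap (𝓞 K) (𝓞 L)) ≤ w.asIdeal ↔ 𝔪 ≤ (w.under (𝓞 K)).asIdeal :=
  Ideal.map_le_iff_le_comap

/-- The part of a divisor outside `S`. -/
theorem hn_exists_restrict (S : Set (HeightOneSpectrum (𝓞 K))) (D : S14.Div K) :
    ∃ D' : S14.Div K, (∀ v, v ∈ S → D' v = 0) ∧ ∀ v, v ∉ S → D' v = D v := by
  classical
  refine ⟨D.filter (fun v => v ∉ S), fun v hv => ?_, fun v hv => ?_⟩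
  · exact Finsupp.filter_apply_neg _ _ (not_not.mpr hv)
  · exact Finsupp.filter_apply_pos _ _ hv

end HN5

end Fermat.Agent.S55
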