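import Fermat.Agent.S55.Hasse.Spec
import Fermat.Agent.S14.NormDiv

set_option autoImplicit false
set_option linter.unusedSectionVars false

/-!
# S55 / Hasse norm theorem, HN-6: the norm residue group `Q = ∏_{v ∈ S} K_vˣ ⧸ N L_wˣ` is generated
by the image of the `S`-units and ONE element (second inequality + weak approximation).
-/

noncomputable section

namespace Fermat.Agent.S55

open NumberField IsDedekindDomain Fermat.Agent.S14

variable {K L : Type} [Field K] [NumberField K] [Field L] [NumberField L] [Algebra K L]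

/-- A uniform positive lower bound for finitely many positive reals. -/
theorem hn_exists_pos_le {ι : Type*} [Finite ι] (f : ι → ℝ) (hf : ∀ k, 0 < f k) :
    ∃ ε : ℝ, 0 < ε ∧ ∀ k, ε ≤ f k := by
  rcases isEmpty_or_nonempty ι with h | h
  · exact ⟨1, one_pos, fun k => isEmptyElim k⟩
  · obtain ⟨k₀, hk₀⟩ := Finite.exists_min f
    exact ⟨f k₀, hf k₀, hk₀⟩

/-- Every element of `Q` is the localisation of a global element (weak approximation). -/
theorem hn_exists_hnLoc_eq [IsGalois K L] {p : ℕ} [Fact p.Prime] (hdeg : Module.finrank K L = p)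
    {ι : Type} [Fintype ι] (q : ι → ℕ) [∀ k, Fact (q k).Prime] (j : ∀ k, L →+* PadicAlgCl (q k))
    (S : Finset (HeightOneSpectrum (𝓞 K))) (hcov : HnCovers K q j S)
    (x : ∀ k, HnQ K q j k) : ∃ b : Kˣ, hnLoc K q j b = x := by
  -- lift the components
  have hlift : ∀ k, ∃ u : (lgField (q k) ((j k).comp (algebraMap K L)))ˣ,
      hnMk K q j k u = x k := fun k => hnMk_surjective K q j k (x k)
  choose u hu using hlift
  -- the radii
  have hball := fun k => hn_exists_ball_le_norm hdeg (q k) (j k)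
  choose r hrpos hr using hball
  obtain ⟨ε, hε, hεr⟩ := hn_exists_pos_le r hrpos
  have hne : ∀ k k', k ≠ k' →
      lgPlace (q k) ((j k).comp (algebraMap K L)) ≠
        lgPlace (q k') ((j k').comp (algebraMap K L)) := by
    intro k k' hkk' h
    exact hkk' (hcov.inj h)
  obtain ⟨b, hb⟩ := lg_weak_approx_units q (fun k => (j k).comp (algebraMap K L)) hne u hε
  refine ⟨b, ?_⟩
  funext k
  rw [hnLoc_apply, ← hu k, hnLocAt, MonoidHom.comp_apply, ← mul_inv_eq_one, ← map_inv, ← map_mul,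
    hnMk_eq_one_iff]
  -- `(lgEmb b)⁻¹ * u k` is a local norm since its inverse is
  have hmem : (u k)⁻¹ * Units.map (lgEmb (q k) ((j k).comp (algebraMap K L)) :
      K →* lgField (q k) ((j k).comp (algebraMap K L))) b ∈
      lfNormSubgroup (lgField (q k) ((j k).comp (algebraMap K L))) (lgField (q k) (j k)) := by
    apply hr k
    refine lt_of_lt_of_le ?_ (hεr k)
    have hcoe : ((((u k)⁻¹ * Units.map (lgEmb (q k) ((j k).comp (algebraMap K L)) :
        K →* lgField (q k) ((j k).comp (algebraMap K L))) b :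
        (lgField (q k) ((j k).comp (algebraMap K L)))ˣ) :
        lgField (q k) ((j k).comp (algebraMap K L))) : PadicAlgCl (q k)) =
        ((u k : lgField (q k) ((j k).comp (algebraMap K L))) : PadicAlgCl (q k))⁻¹ *
          ((j k).comp (algebraMap K L)) (b : K) := by
      rw [Units.val_mul, Units.val_inv_eq_inv_val]
      rfl
    rw [hcoe]
    exact hb k
  rwa [mul_comm] at hmem

/-- **HN-6**: `Q = ∏_{v ∈ S} K_vˣ ⧸ N L_wˣ` is generated by the image of the `S`-units of `K` and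
one element `q₀` (the second inequality). -/
theorem hn_exists_generator [IsGalois K L] {p : ℕ} [Fact p.Prime]
    (hdeg : Module.finrank K L = p) {ι : Type} [Fintype ι] (q : ι → ℕ) [∀ k, Fact (q k).Prime]
    (j : ∀ k, L →+* PadicAlgCl (q k)) (S : Finset (HeightOneSpectrum (𝓞 K)))
    (hcov : HnCovers K q j S)
    (hClK : GfiClassTrivial K (S : Set (HeightOneSpectrum (𝓞 K))))
    (hClL : GfiClassTrivial L (gfiAbove K L (S : Set (HeightOneSpectrum (𝓞 K))))) :
    ∃ q₀ : (∀ k, HnQ K q j k), ∀ x : (∀ k, HnQ K q j k),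
      ∃ (n : ℕ) (ε : Kˣ), ε ∈ (S : Set (HeightOneSpectrum (𝓞 K))).unit K ∧
        x = hnLoc K q j ε * q₀ ^ n := by
  set SK : Set (HeightOneSpectrum (𝓞 K)) := (S : Set (HeightOneSpectrum (𝓞 K))) with hSK
  obtain ⟨𝔪, h𝔪0, h𝔪S, h𝔪loc⟩ := hn_exists_modulus hdeg q j S hcov
  obtain ⟨D₀, hD₀, hgen⟩ := gd_second_inequality K (F := L) hdeg 𝔪 h𝔪0
  obtain ⟨b₀, hb₀⟩ := hn_exists_divOf_eq SK hClK D₀
  refine ⟨hnLoc K q j b₀, fun x => ?_⟩
  obtain ⟨b, rfl⟩ := hn_exists_hnLoc_eq hdeg q j S hcov x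
  -- the divisor of `b` outside `S`
  obtain ⟨D', hD'S, hD'⟩ := hn_exists_restrict SK (divOf K (b : K))
  have hprime : gdPrimeTo K 𝔪 D' :=
    (hn_gdPrimeTo_iff SK 𝔪 (fun v => by rw [h𝔪S v]; rfl) D').mpr hD'S
  obtain ⟨n, x₁, E, hx₁, hE, hD⟩ := hgen D' hprime
  have hx₁0 : x₁ ≠ 0 := by
    obtain ⟨a, c, ha, hc, -, -, -, rfl⟩ := hx₁
    apply div_ne_zero
    · exact fun h => ha (RingOfIntegers.coe_eq_zero_iff.mp h)
    · exact fun h => hc (RingOfIntegers.coe_eq_zero_iff.mp h)
  obtain ⟨y, hy⟩ := hn_exists_divOf_eq (gfiAbove K L SK) hClL E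
  set Ny : Kˣ := Units.map (Algebra.norm K : L →* K) y with hNy
  set x₁u : Kˣ := Units.mk0 x₁ hx₁0 with hx₁u
  set ε : Kˣ := b * (b₀ ^ n * x₁u * Ny)⁻¹ with hε
  have hεmem : ε ∈ SK.unit K := by
    rw [hn_mem_unit_iff_divOf]
    intro v hv
    have h1 : divOf K (Ny : K) v = normDiv K L E v := by
      have h2 : divOf K (Ny : K) = normDiv K L (divOf L (y : L)) :=
        (normDiv_divOf (K := K) (F := L) (y : L) y.ne_zero).symm
      rw [h2]
      exact hn_normDiv_apply_congr SK _ _ hy v hv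
    rw [hε, hn_divOf_mul, hn_divOf_inv, hn_divOf_mul, hn_divOf_mul, hn_divOf_pow]
    simp only [Finsupp.coe_add, Finsupp.coe_neg, Finsupp.coe_smul, Pi.add_apply, Pi.neg_apply,
      Pi.smul_apply]
    rw [h1, ← hD' v hv, hD, hb₀ v hv]
    simp only [Finsupp.coe_add, Finsupp.coe_smul, Pi.add_apply, Pi.smul_apply]
    rw [hx₁u, Units.val_mk0]
    abel
  refine ⟨n, ε, hεmem, ?_⟩
  have hb : b = ε * b₀ ^ n * x₁u * Ny := by
    rw [hε]
    group
  have h1 : hnLoc K q j x₁u = 1 := h𝔪loc x₁u (by rw [hx₁u, Units.val_mk0]; exact hx₁)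
  have h2 : hnLoc K q j Ny = 1 := hnLoc_norm q j y
  conv_lhs => rw [hb]
  rw [map_mul, map_mul, map_mul, map_pow, h1, h2, mul_one, mul_one]

end Fermat.Agent.S55
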