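import Fermat.Agent.S55.Hasse.Defs
import Fermat.Agent.S55.GFI.Places
import Fermat.Agent.S55.LG.Decomp
import Fermat.Agent.S55.LocalBrauerOrder

set_option autoImplicit false
set_option linter.unusedSectionVars false

/-!
# S55 / Hasse norm theorem, leaf HN-2: the norm residue groups

For `L/K` Galois of prime degree `p` the local norm index at a place `v` is `p` if there is exactly
one prime of `L` above `v` and `1` otherwise (local norm index theorem `lfo_index_norm` + the local
degree `[L_w : K_v] = e f = p / g`).  Consequently `∏_{v ∈ S} K_vˣ ⧸ N L_wˣ` is finite of order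
`p ^ #nonsplit(S)` and of exponent `p`.
-/

noncomputable section

namespace Fermat.Agent.S55

open NumberField IsDedekindDomain

variable {K L : Type} [Field K] [NumberField K] [Field L] [NumberField L] [Algebra K L]

/-- `#(primes above v) * [L_w : K_v] = p`. -/
theorem hn_ncard_mul_finrank [IsGalois K L] {p : ℕ} [Fact p.Prime]
    (hdeg : Module.finrank K L = p) (q : ℕ) [Fact q.Prime] (j : L →+* PadicAlgCl q) :
    (gfiFiber K L (lgPlace q (j.comp (algebraMap K L)))).ncard *
      Module.finrank (lgField q (j.comp (algebraMap K L))) (lgField q j) = p := by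
  have hlo : (lgPlace q j).asIdeal.LiesOver (lgPlace q (j.comp (algebraMap K L))).asIdeal :=
    lgp_liesOver q j
  have key := Ideal.ncard_primesOver_mul_ramificationIdxIn_mul_inertiaDegIn
    (lgPlace q (j.comp (algebraMap K L))).asIdeal (𝓞 L) (L ≃ₐ[K] L)
  rw [IsGalois.card_aut_eq_finrank, hdeg,
    Ideal.ramificationIdxIn_eq_ramificationIdx (lgPlace q (j.comp (algebraMap K L))).asIdeal
      (lgPlace q j).asIdeal (L ≃ₐ[K] L),
    Ideal.inertiaDegIn_eq_inertiaDeg (lgPlace q (j.comp (algebraMap K L))).asIdeal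
      (lgPlace q j).asIdeal (L ≃ₐ[K] L), ← gfipl_ncard_fiber] at key
  rw [lg_finrank_eq]
  exact key

/-- Local norm index: `p` at a place with one prime above it, `1` at a split place. -/
theorem hn_index_norm_at [IsGalois K L] {p : ℕ} [Fact p.Prime] (hdeg : Module.finrank K L = p)
    (q : ℕ) [Fact q.Prime] (j : L →+* PadicAlgCl q) :
    (lfNormSubgroup (lgField q (j.comp (algebraMap K L))) (lgField q j)).index =
      if (gfiFiber K L (lgPlace q (j.comp (algebraMap K L)))).ncard = 1 then p else 1 := by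
  haveI : IsGalois (lgField q (j.comp (algebraMap K L))) (lgField q j) := lg_isGalois q j
  obtain ⟨r, -, hrinj, -, -⟩ := lg_exists_res (K := K) q j
  haveI : IsCyclic (L ≃ₐ[K] L) :=
    isCyclic_of_prime_card (p := p) (by rw [IsGalois.card_aut_eq_finrank, hdeg])
  haveI : IsCyclic (lgField q j ≃ₐ[lgField q (j.comp (algebraMap K L))] lgField q j) :=
    isCyclic_of_injective r hrinj
  rw [lfo_index_norm q (lgField q (j.comp (algebraMap K L))) (lgField q j)]
  have key := hn_ncard_mul_finrank hdeg q j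
  have hp : p.Prime := Fact.out
  split_ifs with h
  · rw [h, one_mul] at key
    exact key
  · rcases gfiFiber_ncard hdeg (lgPlace q (j.comp (algebraMap K L))) with h1 | h1
    · exact absurd h1 h
    · rw [h1] at key
      exact Nat.eq_of_mul_eq_mul_left hp.pos (by rw [key, mul_one])

theorem hn_card_HnQ_at [IsGalois K L] {p : ℕ} [Fact p.Prime] (hdeg : Module.finrank K L = p)
    {ι : Type} (q : ι → ℕ) [∀ k, Fact (q k).Prime] (j : ∀ k, L →+* PadicAlgCl (q k)) (k : ι) :
    Nat.card (HnQ K q j k) = if (gfiFiber K L (hnPlace K q j k)).ncard = 1 then p else 1 := by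
  rw [hn_card_HnQ_eq_index]
  exact hn_index_norm_at hdeg (q k) (j k)

theorem hn_finite_HnQ_at [IsGalois K L] {p : ℕ} [Fact p.Prime] (hdeg : Module.finrank K L = p)
    {ι : Type} (q : ι → ℕ) [∀ k, Fact (q k).Prime] (j : ∀ k, L →+* PadicAlgCl (q k)) (k : ι) :
    Finite (HnQ K q j k) := by
  apply Nat.finite_of_card_ne_zero
  rw [hn_card_HnQ_at hdeg q j k]
  have hp : p.Prime := Fact.out
  split_ifs
  · exact hp.ne_zero
  · exact one_ne_zero

theorem hn_finite_HnQ [IsGalois K L] {p : ℕ} [Fact p.Prime] (hdeg : Module.finrank K L = p)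
    {ι : Type} [Finite ι] (q : ι → ℕ) [∀ k, Fact (q k).Prime] (j : ∀ k, L →+* PadicAlgCl (q k)) :
    Finite (∀ k, HnQ K q j k) := by
  haveI : ∀ k, Finite (HnQ K q j k) := fun k => hn_finite_HnQ_at hdeg q j k
  exact Pi.finite

/-- `|∏_k K_{v_k}ˣ ⧸ N L_{w_k}ˣ| = p ^ #nonsplit(S)` when the family covers `S`. -/
theorem hn_card_HnQ [IsGalois K L] {p : ℕ} [Fact p.Prime] (hdeg : Module.finrank K L = p)
    {ι : Type} [Finite ι] (q : ι → ℕ) [∀ k, Fact (q k).Prime] (j : ∀ k, L →+* PadicAlgCl (q k))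
    (S : Finset (HeightOneSpectrum (𝓞 K))) (hcov : HnCovers K q j S) :
    Nat.card (∀ k, HnQ K q j k) = p ^ (gfiNonsplit K L S).card := by
  classical
  haveI : Fintype ι := Fintype.ofFinite ι
  rw [Nat.card_pi]
  simp_rw [hn_card_HnQ_at hdeg q j]
  rw [Finset.prod_ite, Finset.prod_const, Finset.prod_const_one, mul_one]
  congr 1
  rw [← Finset.card_image_of_injective _ hcov.inj]
  congr 1
  ext v
  simp only [gfiNonsplit, Finset.mem_image, Finset.mem_filter, Finset.mem_univ, true_and]
  constructor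
  · rintro ⟨k, hk, rfl⟩
    exact ⟨hcov.mem k, hk⟩
  · rintro ⟨hv, hv1⟩
    obtain ⟨k, rfl⟩ := hcov.surj v hv
    exact ⟨k, hv1, rfl⟩

theorem hn_pow_eq_one [IsGalois K L] {p : ℕ} [Fact p.Prime] (hdeg : Module.finrank K L = p)
    {ι : Type} (q : ι → ℕ) [∀ k, Fact (q k).Prime] (j : ∀ k, L →+* PadicAlgCl (q k))
    (x : ∀ k, HnQ K q j k) : x ^ p = 1 := by
  funext k
  rw [Pi.pow_apply, Pi.one_apply]
  have h1 : (x k) ^ Nat.card (HnQ K q j k) = 1 := pow_card_eq_one'
  rw [hn_card_HnQ_at hdeg q j k] at h1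
  split_ifs at h1
  · exact h1
  · rw [pow_one] at h1
    rw [h1, one_pow]

end Fermat.Agent.S55
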