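import Fermat.Agent.S55.Hasse.Defs
import Fermat.Agent.S55.LG.Tensor

set_option autoImplicit false
set_option linter.unusedSectionVars false

/-!
# S55 / Hasse norm theorem, leaf HN-1: global norms are local norms

From helper17's `lg_norm_eq_prod`: `N_{L/K} x`, seen in `K_v`, is the product over a set `T` of
representatives of the places above `v` of the local norms of the conjugates `t x`.
-/

noncomputable section

namespace Fermat.Agent.S55

open NumberField IsDedekindDomain

variable {K L : Type} [Field K] [NumberField K] [Field L] [NumberField L] [Algebra K L]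

/-- A set of representatives for the fibres of a map out of a finite type. -/
theorem hn_exists_reps {G P : Type*} [Fintype G] (f : G → P) :
    ∃ T : Finset G, ∀ g : G, ∃! t, t ∈ T ∧ f t = f g := by
  classical
  rcases isEmpty_or_nonempty G with hG | hG
  · exact ⟨∅, fun g => isEmptyElim g⟩
  let s : P → G := fun v => if h : ∃ t, f t = v then h.choose else Classical.arbitrary G
  have hs : ∀ g, f (s (f g)) = f g := by
    intro g
    have h : ∃ t, f t = f g := ⟨g, rfl⟩
    show f (if h : ∃ t, f t = f g then h.choose else Classical.arbitrary G) = f g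
    rw [dif_pos h]
    exact h.choose_spec
  refine ⟨Finset.univ.image (fun g => s (f g)), fun g => ⟨s (f g), ⟨?_, hs g⟩, ?_⟩⟩
  · exact Finset.mem_image.mpr ⟨g, Finset.mem_univ _, rfl⟩
  · rintro t ⟨ht, hft⟩
    obtain ⟨g', -, rfl⟩ := Finset.mem_image.mp ht
    rw [hs g'] at hft
    rw [hft]

theorem hn_lgEmb_norm_mem [IsGalois K L] (q : ℕ) [Fact q.Prime] (j : L →+* PadicAlgCl q)
    (y : Lˣ) :
    Units.map (lgEmb q (j.comp (algebraMap K L)) : K →* lgField q (j.comp (algebraMap K L)))
        (Units.map (Algebra.norm K : L →* K) y) ∈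
      lfNormSubgroup (lgField q (j.comp (algebraMap K L))) (lgField q j) := by
  classical
  obtain ⟨T, hT⟩ := hn_exists_reps
    (fun g : L ≃ₐ[K] L => lgPlace q (j.comp ((g : L ≃ₐ[K] L) : L →+* L)))
  refine ⟨∏ t ∈ T, Units.map (lgEmb q j : L →* lgField q j)
    (Units.map ((t : L ≃ₐ[K] L) : L →* L) y), ?_⟩
  apply Units.ext
  rw [lfNormHom, Units.coe_map, Units.coe_map, Units.coe_map]
  rw [Units.coe_prod, map_prod]
  exact (lg_norm_eq_prod q j T hT (y : L)).symm

theorem hnLoc_norm [IsGalois K L] {ι : Type} (q : ι → ℕ) [∀ k, Fact (q k).Prime]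
    (j : ∀ k, L →+* PadicAlgCl (q k)) (y : Lˣ) :
    hnLoc K q j (Units.map (Algebra.norm K : L →* K) y) = 1 := by
  rw [hnLoc_eq_one_iff]
  exact fun k => hn_lgEmb_norm_mem (q k) (j k) y

end Fermat.Agent.S55
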