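import Fermat.Agent.S55.Hasse.Defs
import Fermat.Agent.S55.Hasse.LocOpen
import Fermat.Agent.S55.LG.Place
import Fermat.Agent.S55.Global.Second.Defs

set_option autoImplicit false
set_option linter.unusedSectionVars false

/-!
# S55 / Hasse norm theorem, leaf HN-4: `x ≡ 1 mod× 𝔪` implies `x` is `v`-adically close to `1`;
the modulus `𝔪 = ∏_{v ∈ S} v ^ (M + 1)`.
-/

noncomputable section

namespace Fermat.Agent.S55

open NumberField IsDedekindDomain

variable {K L : Type} [Field K] [NumberField K] [Field L] [NumberField L] [Algebra K L]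

/-- Elements of `v ^ n` have norm at most `‖π‖ ^ n`, `π` a uniformizer at `v`. -/
theorem hn_norm_le_pow_of_mem_pow (q : ℕ) [Fact q.Prime] (i : K →+* PadicAlgCl q) (π : 𝓞 K)
    (hπ : (lgPlace q i).intValuation π = WithZero.exp (-1 : ℤ)) (n : ℕ) (y : 𝓞 K)
    (hy : y ∈ (lgPlace q i).asIdeal ^ n) : ‖i (y : K)‖ ≤ ‖i (π : K)‖ ^ n := by
  have hπK : (lgPlace q i).valuation K (π : K) = WithZero.exp (-1 : ℤ) := by
    rw [← hπ]
    exact HeightOneSpectrum.valuation_of_algebraMap (lgPlace q i) π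
  have hπ0 : (π : K) ≠ 0 := by
    intro h
    rw [h, map_zero] at hπK
    exact WithZero.exp_ne_zero.symm hπK
  have hyK : (lgPlace q i).valuation K (y : K) ≤ WithZero.exp (-(n : ℤ)) := by
    have h1 : (lgPlace q i).valuation K (y : K) = (lgPlace q i).intValuation y :=
      HeightOneSpectrum.valuation_of_algebraMap (lgPlace q i) y
    rw [h1, HeightOneSpectrum.intValuation_le_pow_iff_mem]
    exact hy
  have hval : (lgPlace q i).valuation K ((y : K) / (π : K) ^ n) ≤ 1 := by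
    rw [map_div₀, map_pow, hπK, ← WithZero.exp_nsmul, div_le_one₀ WithZero.exp_pos]
    have : n • (-1 : ℤ) = -(n : ℤ) := by simp
    rw [this]
    exact hyK
  have hnorm := lgp_norm_le_one_of_valuation q i _ hval
  have hπpos : 0 < ‖i (π : K)‖ ^ n := pow_pos (norm_pos_iff.mpr ((map_ne_zero i).mpr hπ0)) n
  rw [map_div₀, map_pow, norm_div, norm_pow, div_le_one hπpos] at hnorm
  exact hnorm

theorem hn_norm_sub_one_lt_of_gdOneMod (q : ℕ) [Fact q.Prime] (i : K →+* PadicAlgCl q) {ε : ℝ}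
    (hε : 0 < ε) :
    ∃ M : ℕ, ∀ 𝔪 : Ideal (𝓞 K), 𝔪 ≤ (lgPlace q i).asIdeal ^ (M + 1) →
      ∀ x : K, gdOneMod K 𝔪 x → ‖i x - 1‖ < ε := by
  obtain ⟨π, hπ⟩ := (lgPlace q i).intValuation_exists_uniformizer
  have hπmem : π ∈ (lgPlace q i).asIdeal := by
    rw [← pow_one (lgPlace q i).asIdeal, ← HeightOneSpectrum.intValuation_le_pow_iff_mem, hπ]
    simp
  have hρ1 : ‖i (π : K)‖ < 1 := by
    rw [lgPlace_asIdeal, mem_lgIdeal_iff] at hπmem
    exact hπmem
  obtain ⟨M, hM⟩ := exists_pow_lt_of_lt_one hε hρ1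
  refine ⟨M, fun 𝔪 h𝔪 x hx => ?_⟩
  obtain ⟨a, b, -, hb0, -, hbcop, hab, rfl⟩ := hx
  have hbK : (b : K) ≠ 0 := RingOfIntegers.coe_ne_zero_iff.mpr hb0
  have h𝔪v : 𝔪 ≤ (lgPlace q i).asIdeal :=
    h𝔪.trans (Ideal.pow_le_self (Nat.succ_ne_zero M))
  -- `b` is a unit at the place
  have hbnorm : ‖i (b : K)‖ = 1 := by
    refine lgp_norm_eq_one q i b fun hbmem => ?_
    rw [Ideal.isCoprime_iff_sup_eq] at hbcop
    have hle : Ideal.span {b} ⊔ 𝔪 ≤ (lgPlace q i).asIdeal :=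
      sup_le ((Ideal.span_singleton_le_iff_mem _).mpr hbmem) h𝔪v
    rw [hbcop, top_le_iff] at hle
    exact (lgPlace q i).isPrime.ne_top hle
  have h2 : i ((a : K) / (b : K)) - 1 = i (((a - b : 𝓞 K)) : K) / i (b : K) := by
    have h0 : (((a - b : 𝓞 K)) : K) = (a : K) - (b : K) := map_sub (algebraMap (𝓞 K) K) a b
    rw [h0, map_div₀, map_sub, sub_div, div_self ((map_ne_zero i).mpr hbK)]
  rw [h2, norm_div, hbnorm, div_one]
  have h3 := hn_norm_le_pow_of_mem_pow q i π hπ (M + 1) (a - b) (h𝔪 hab)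
  refine lt_of_le_of_lt h3 (lt_of_le_of_lt ?_ hM)
  rw [pow_succ]
  exact mul_le_of_le_one_right (pow_nonneg (norm_nonneg _) M) hρ1.le

/-- The modulus: a nonzero ideal `𝔪` whose prime divisors are exactly the elements of `S`, and
such that every `x ≡ 1 mod× 𝔪` is a local norm at all places of `S`.  (Uses HN-3.) -/
theorem hn_exists_modulus [IsGalois K L] {p : ℕ} [Fact p.Prime] (hdeg : Module.finrank K L = p)
    {ι : Type} [Finite ι] (q : ι → ℕ) [∀ k, Fact (q k).Prime] (j : ∀ k, L →+* PadicAlgCl (q k))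
    (S : Finset (HeightOneSpectrum (𝓞 K))) (hcov : HnCovers K q j S) :
    ∃ 𝔪 : Ideal (𝓞 K), 𝔪 ≠ ⊥ ∧
      (∀ v : HeightOneSpectrum (𝓞 K), 𝔪 ≤ v.asIdeal ↔ v ∈ S) ∧
      ∀ x : Kˣ, gdOneMod K 𝔪 (x : K) → hnLoc K q j x = 1 := by
  classical
  have hball := fun k => hn_exists_ball_le_norm hdeg (q k) (j k)
  choose r hrpos hr using hball
  have hM := fun k => hn_norm_sub_one_lt_of_gdOneMod (q k) ((j k).comp (algebraMap K L)) (hrpos k)
  choose M hM using hM
  obtain ⟨M₀, hM₀⟩ := Finite.exists_le M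
  refine ⟨∏ v ∈ S, v.asIdeal ^ (M₀ + 1), ?_, ?_, ?_⟩
  · rw [← Ideal.zero_eq_bot, Finset.prod_ne_zero_iff]
    intro v _
    exact pow_ne_zero _ v.ne_bot
  · intro v
    constructor
    · intro h
      obtain ⟨w, hwS, hw⟩ := (Ideal.IsPrime.prod_le v.isPrime).mp h
      have hwv : w.asIdeal ≤ v.asIdeal := Ideal.IsPrime.le_of_pow_le hw
      have : w = v :=
        HeightOneSpectrum.ext (w.isMaximal.eq_of_le v.isPrime.ne_top hwv)
      rwa [← this]
    · intro hv
      exact (Ideal.le_of_dvd (Finset.dvd_prod_of_mem _ hv)).trans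
        (Ideal.pow_le_self (Nat.succ_ne_zero M₀))
  · intro x hx
    rw [hnLoc_eq_one_iff]
    intro k
    apply hr k
    have hle : (∏ v ∈ S, v.asIdeal ^ (M₀ + 1)) ≤
        (lgPlace (q k) ((j k).comp (algebraMap K L))).asIdeal ^ (M k + 1) := by
      refine (Ideal.le_of_dvd (Finset.dvd_prod_of_mem _ (hcov.mem k))).trans ?_
      exact Ideal.pow_le_pow_right (Nat.succ_le_succ (hM₀ k))
    exact hM k _ hle (x : K) hx

end Fermat.Agent.S55
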