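import Fermat.Agent.S55.Hasse.Defs
import Fermat.Agent.S55.Hasse.Abstract
import Fermat.Agent.S55.Hasse.ChooseS
import Fermat.Agent.S55.GFI.FirstIneq
import Fermat.Agent.S55.LG.TensorSpec
import Fermat.Agent.S55.LG.ApproxSpec
import Fermat.Agent.S55.LocalBrauerOrder
import Fermat.Agent.S55.Global.Second.Spec
import Fermat.Agent.S55.Hasse.LocOpen
import Fermat.Agent.S55.Hasse.LocNorm
import Fermat.Agent.S55.Hasse.LocCard
import Fermat.Agent.S55.Hasse.OneMod
import Fermat.Agent.S55.Hasse.Divisors

/-!
# S55 / Hasse norm theorem (degree `p`): all leaves are DONE; this file is an import shim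

`LocNorm.lean` (HN-1), `LocCard.lean` (HN-2), `LocOpen.lean` (HN-3, helper24), `OneMod.lean` (HN-4),
`Divisors.lean` (HN-5, helper11).  The assembly is `Generate.lean` (HN-6) and `HasseNorm.lean`
(HN-7).  The only remaining black box is `gd_second_inequality` (`Global/Second/Spec.lean`).
-/
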